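/-
S36 (captain helper36).  THE INTERFACE between the bridge `BPrime ⇐ bp_abs + instance`
(sub-architect helper225) and the modular instance of the abstract model
(helper98, helper156, helper39).

IMPORTANT PRACTICAL REMARK.  Everything is stated over an ABSTRACT field `K` (a type variable with
`[Field K] [Algebra ℚ K] [Algebra K ℚ̄]`), not over `↥(K0 A)`: with `K₀ : IntermediateField ℚ ℚ̄`
instance synthesis of `Algebra ↥K₀ ↥(laurentBaseChange ↥K₀ _)` times out as soon as
`heckeAlphaBar K₀ _ _` is used.  With a type variable there is no problem, and the specialisation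
`K := ↥(K0 A)` of a finished definition or theorem is harmless.
-/
import Fermat.Agent.S36.BP.Defs
import Fermat.Agent.S18.ModDefs
import Fermat.Agent.Lib.InertiaField.Defs
import Fermat.Prelude.Def_ModularCurve_HeckeOperator

set_option autoImplicit false

noncomputable section

namespace Fermat.Agent.S36

open Fermat.Agent.Lib.InertiaField Fermat.Agent.S18 ModularCurve

/-- (embedding) ∘ (norm along the embedding), for an embedding of fields `f : F₁ → F`. -/
def embNorm {F₁ F : Type*} [Field F₁] [Field F] (f : F₁ →+* F) : F →* F :=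
  (f : F₁ →* F).comp (letI := f.toAlgebra; Algebra.norm F₁)

/-- The abstract model of block BP is realised by the function field `FK K (N₀ q²)` of `X₀(N₀ q²)`
over `K`, with the two degeneracy maps from level `N₀ q`. -/
def ModelOver (K : Type*) [Field K] [Algebra ℚ K] (A₀ : ValuationSubring K) (q N₀ : ℕ)
    [NeZero q] [NeZero N₀] : Prop :=
  ∃ (x : FK K (N₀ * q * q)) (V : Fin 3 → ValuationSubring (FK K (N₀ * q * q)))
    (ϖm : FK K (N₀ * q * q)),
    BP.Model A₀ q x V ϖm
      (heckeAlphaBar K (N₀ * q) q).toRingHom.fieldRange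
      (heckeBetaBar K (N₀ * q) q).toRingHom.fieldRange
      (embNorm (heckeAlphaBar K (N₀ * q) q).toRingHom)
      (embNorm (heckeBetaBar K (N₀ * q) q).toRingHom)

/-- **The modular instance**: `K` a subfield of `ℚ̄` with a discrete valuation ring `A₀` as in
`BP.BaseHyp` (uniformiser `q`, algebraically closed residue field, ...), `q ∤ N₀`, and `N₀`
divisible by the auxiliary level (`4` for `q` odd, `9` for `q = 2`). -/
def ModelStatement : Prop :=
  ∀ (K : Type) [Field K] [Algebra ℚ K] [Algebra K Qb] (A₀ : ValuationSubring K)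
    (q : ℕ) [NeZero q] (N₀ : ℕ) [NeZero N₀], BP.BaseHyp A₀ q → ¬ q ∣ N₀ →
    (if q = 2 then 9 ∣ N₀ else 4 ∣ N₀) → ModelOver K A₀ q N₀

/-- The specialisation used by the bridge. -/
theorem ModelStatement.at_inertiaField (h : ModelStatement) (A : ValuationSubring Qb)
    (q : ℕ) [NeZero q] (N₀ : ℕ) [NeZero N₀] (hb : BP.BaseHyp (A0 A) q) (hq : ¬ q ∣ N₀)
    (haux : if q = 2 then 9 ∣ N₀ else 4 ∣ N₀) : ModelOver (K0 A) (A0 A) q N₀ :=
  h (K0 A) (A0 A) q N₀ hb hq haux

end Fermat.Agent.S36

end
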