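/-
S36 (captain helper36).  Definitions: the interfaces between the top of S36, the cluster GAL and the
geometric part (project BAD).

* `OldData M' q n c₀ D` : what the geometric part (norm maps to level `M'`, `M = M' * q`, and the
  statement (B')) delivers on top of a layer `D : Fermat.Agent.GAL.LayerData M n`;
* `normBeta`, `BPrime` : THE interface S36 <-> BAD;
* `HeckeOpStatement`, `MultStatement` : what the top of S36 consumes from the blocks E, M, NV of GAL;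
* `concreteLayer` : the layer `W := Fermat.Agent.GAL.E.W N n`.
-/
import Fermat.Agent.GAL.Tower
import Fermat.Agent.GAL.E.Package

set_option autoImplicit false

noncomputable section

namespace Fermat.Agent.S36

open Fermat.Agent.GAL Fermat.Agent.S30 Fermat.Agent.S24 ModularCurve CongruenceSubgroup
open Fermat.Agent.Lib.HeckeHom
open Fermat.Agent.S16.Lift (homPE)

/-- The two norm maps from level `M` to level `M'` (`M = M' * q`) on the Kummer model, their Hecke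
equivariance, and the key statement (B'): an inertia invariant class which is killed by both norm
maps is killed by the constant `c₀`. -/
structure OldData {M : ℕ} [NeZero M] (M' q n c₀ : ℕ) [NeZero M'] (D : LayerData M n) :
    Type 1 where
  /-- the layer at level `M'` -/
  D' : LayerData M' n
  /-- the norm along `f(τ) ↦ f(τ)` -/
  N₁ : D.W →+ D'.W
  /-- the norm along `f(τ) ↦ f(q τ)` -/
  N₂ : D.W →+ D'.W
  N₁_TT : ∀ (ℓ : ℕ) (hℓ : ℓ.Prime) (hℓM : ¬ ℓ ∣ M) (hℓM' : ¬ ℓ ∣ M') (x : D.W),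
    N₁ (D.TT ℓ hℓ hℓM x) = D'.TT ℓ hℓ hℓM' (N₁ x)
  N₂_TT : ∀ (ℓ : ℕ) (hℓ : ℓ.Prime) (hℓM : ¬ ℓ ∣ M) (hℓM' : ¬ ℓ ∣ M') (x : D.W),
    N₂ (D.TT ℓ hℓ hℓM x) = D'.TT ℓ hℓ hℓM' (N₂ x)
  bprime : ∀ A : ValuationSubring (AlgebraicClosure ℚ), A.LiesOverPrime q → ∀ x : D.W,
    (∀ σ ∈ A.inertiaSubgroupIn ℚ, D.rho σ x = x) → N₁ x = 0 → N₂ x = 0 → c₀ • x = 0

section Norm

variable (N ℓ : ℕ) [NeZero N] [NeZero ℓ]

/-- `FN (N * ℓ)` as an algebra over `FN N` through `β : f(τ) ↦ f(ℓ τ)`. -/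
abbrev algBeta : Algebra (FN N) (FN (N * ℓ)) :=
  (heckeBetaBar Kbar N ℓ).toRingHom.toAlgebra

/-- The norm along `β`. -/
def normBeta : FN (N * ℓ) →* FN N :=
  letI := algBeta N ℓ
  Algebra.norm (FN N)

end Norm

/-- **(B')**, the interface S36 <-> BAD.  `q ∥ N`; a class of level `N * q` and exponent `n` prime to
`q` which is invariant under an inertia group above `q` and whose two norms to level `N` are `n`-th
powers is killed by a constant `c₀` depending only on `q` and `N`. -/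
def BPrime : Prop :=
  ∀ (q : ℕ) [NeZero q] (N : ℕ) [NeZero N], q.Prime → q ∣ N → ¬ q ^ 2 ∣ N →
    ∃ c₀ : ℕ, c₀ ≠ 0 ∧ ∀ A : ValuationSubring (AlgebraicClosure ℚ), A.LiesOverPrime q →
      ∀ n : ℕ, ¬ q ∣ n → ∀ u : E.kum (N * q) n,
        (∀ σ ∈ A.inertiaSubgroupIn ℚ, E.rho (N * q) n σ (E.cls u) = E.cls u) →
        (∃ v : FN N, E.normAlpha N q ((u : (FN (N * q))ˣ) : FN (N * q)) = v ^ n) →
        (∃ v : FN N, normBeta N q ((u : (FN (N * q))ˣ) : FN (N * q)) = v ^ n) →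
        c₀ • E.cls u = 0

/-- Output of block E of GAL: the multiplicative Hecke operators exist. -/
def HeckeOpStatement : Prop :=
  ∀ (N ℓ : ℕ) [NeZero N] [NeZero ℓ], ℓ.Prime → ¬ ℓ ∣ N → Nonempty (E.HeckeOp N ℓ)

/-- Output of the blocks M + NV of GAL: the multiplier isomorphism. -/
def MultStatement : Prop :=
  ∀ (N n : ℕ) [NeZero N], 0 < n → ∃ mult : E.W N n ≃+ homPE N (ZMod n),
    ∀ (ℓ : ℕ) [NeZero ℓ] (hℓ : ℓ.Prime) (hℓN : ¬ ℓ ∣ N) (H : E.HeckeOp N ℓ) (x : E.W N n),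
      ((mult (H.TW n x) : homPE N (ZMod n)) : Additive (Gamma0 N) →+ ZMod n) =
        heckeHomT hℓ hℓN (mult x).1

/-- The Hecke operator chosen from `HeckeOpStatement`. -/
def heckeOpOf (hH : HeckeOpStatement) (N ℓ : ℕ) [NeZero N] (hℓ : ℓ.Prime) (hℓN : ¬ ℓ ∣ N) :
    haveI : NeZero ℓ := ⟨hℓ.ne_zero⟩
    E.HeckeOp N ℓ :=
  haveI : NeZero ℓ := ⟨hℓ.ne_zero⟩
  (hH N ℓ hℓ hℓN).some

/-- **The concrete layer**: `W := E.W N n`, `rho := E.rho N n`, `TT ℓ := (heckeOpOf ..).TW n`. -/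
def concreteLayer (hKL : KLStatement) (hH : HeckeOpStatement) (hM : MultStatement)
    (N n : ℕ) [NeZero N] (hn : 0 < n) : LayerData N n where
  W := E.W N n
  rho := E.rho N n
  TT := fun ℓ hℓ hℓN =>
    haveI : NeZero ℓ := ⟨hℓ.ne_zero⟩
    (heckeOpOf hH N ℓ hℓ hℓN).TW n
  commute := fun ℓ hℓ hℓN σ =>
    haveI : NeZero ℓ := ⟨hℓ.ne_zero⟩
    (heckeOpOf hH N ℓ hℓ hℓN).commute_rho_TW n σ
  level := E.pkg_openStab N n
  inertia := fun q hq hqN hqn σ hσ =>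
    AddMonoidHom.ext fun w => E.pkg_unramified hKL N n q hq hqN hqn σ hσ w
  eichlerShimura := fun ℓ hℓ hℓN hℓn σ hσ x =>
    haveI : NeZero ℓ := ⟨hℓ.ne_zero⟩
    E.pkg_eichlerShimura hKL (heckeOpOf hH N ℓ hℓ hℓN) n hℓ hℓN hℓn σ hσ x
  mult := (hM N n hn).choose
  mult_TT := fun ℓ hℓ hℓN x =>
    haveI : NeZero ℓ := ⟨hℓ.ne_zero⟩
    (hM N n hn).choose_spec ℓ hℓ hℓN (heckeOpOf hH N ℓ hℓ hℓN) x

end Fermat.Agent.S36

end
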